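import Mathlib.Data.Nat.Digits.Lemmas
import Mathlib.Algebra.BigOperators.Intervals
import Mathlib.Algebra.Polynomial.Eval.Degree
import Mathlib.Tactic.Ring
import Mathlib.Tactic.Linarith

/-!
# The words of Thue and the theorem of Prouhet

The parity of the binary digit sum has no overlaps, its differences form a word without squares,
and it splits the first `2 ^ (k + 1)` integers into two sets with equal power sums up to `k`.
-/

set_option autoImplicit false

open Finset

namespace FA.ThueWords

/-- The parity of the binary digit sum. -/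
def tm (n : ℕ) : ℕ := (Nat.digits 2 n).sum % 2

theorem tm_lt (n : ℕ) : tm n < 2 := Nat.mod_lt _ two_pos

theorem tm_two_mul (n : ℕ) : tm (2 * n) = tm n := by
  rcases Nat.eq_zero_or_pos n with rfl | h
  · rfl
  · rw [tm, tm, Nat.digits_def' one_lt_two (by omega), List.sum_cons, Nat.mul_mod_right,
      Nat.mul_div_cancel_left _ two_pos, zero_add]

theorem tm_two_mul_add_one (n : ℕ) : tm (2 * n + 1) = 1 - tm n := by
  rw [tm, tm, Nat.digits_def' one_lt_two (by omega), List.sum_cons,
    show (2 * n + 1) % 2 = 1 by omega, show (2 * n + 1) / 2 = n by omega]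
  omega

theorem tm_even_ne {m : ℕ} (hm : m % 2 = 0) : tm m ≠ tm (m + 1) := by
  obtain ⟨n, rfl⟩ : ∃ n, m = 2 * n := ⟨m / 2, by omega⟩
  rw [tm_two_mul, tm_two_mul_add_one]
  have := tm_lt n
  omega

theorem not_three_equal (i : ℕ) : ¬(tm i = tm (i + 1) ∧ tm (i + 1) = tm (i + 2)) := fun h => by
  rcases Nat.mod_two_eq_zero_or_one i with e | e
  · exact tm_even_ne e h.1
  · exact tm_even_ne (m := i + 1) (by omega) h.2

/-- **No overlaps.** -/
theorem not_overlap : ∀ p : ℕ, 1 ≤ p → ∀ i, ¬∀ j ≤ p, tm (i + j) = tm (i + j + p) := by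
  intro p
  induction p using Nat.strong_induction_on with
  | _ p ih =>
    intro hp i h
    rcases Nat.mod_two_eq_zero_or_one p with hev | hodd
    · obtain ⟨q, rfl⟩ : ∃ q, p = 2 * q := ⟨p / 2, by omega⟩
      refine ih q (by omega) (by omega) (i / 2) fun l hl => ?_
      have h1 := h (2 * l) (by omega)
      rcases Nat.mod_two_eq_zero_or_one i with e | e
      · rwa [show i + 2 * l = 2 * (i / 2 + l) by omega,
          show 2 * (i / 2 + l) + 2 * q = 2 * (i / 2 + l + q) by omega, tm_two_mul, tm_two_mul]
          at h1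
      · rw [show i + 2 * l = 2 * (i / 2 + l) + 1 by omega,
          show 2 * (i / 2 + l) + 1 + 2 * q = 2 * (i / 2 + l + q) + 1 by omega, tm_two_mul_add_one,
          tm_two_mul_add_one] at h1
        have := tm_lt (i / 2 + l)
        have := tm_lt (i / 2 + l + q)
        omega
    · rcases (show p = 1 ∨ 3 ≤ p by omega) with rfl | h3
      · exact not_three_equal i ⟨h 0 (by omega), h 1 le_rfl⟩
      · have hfirst : ∀ j < p, tm (i + j) ≠ tm (i + (j + 1)) := by
          intro j hj
          rcases Nat.mod_two_eq_zero_or_one (i + j) with e | e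
          · exact tm_even_ne e
          · rw [h j hj.le, h (j + 1) hj, show i + (j + 1) + p = i + j + p + 1 by omega]
            exact tm_even_ne (by omega)
        have halt : ∀ j < 2 * p, tm (i + j) ≠ tm (i + j + 1) := by
          intro j hj
          rcases Nat.lt_or_ge j p with hjp | hjp
          · exact hfirst j hjp
          · obtain ⟨c, rfl⟩ := Nat.exists_eq_add_of_le hjp
            rw [show i + (p + c) = i + c + p by omega, ← h c (by omega),
              show i + c + p + 1 = i + (c + 1) + p by omega, ← h (c + 1) (by omega)]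
            exact hfirst c (by omega)
        have hskip : ∀ j, j + 1 < 2 * p → tm (i + j) = tm (i + j + 2) := by
          intro j hj
          have h1 := halt j (by omega)
          have h2 := halt (j + 1) hj
          rw [← add_assoc, show i + j + 1 + 1 = i + j + 2 by omega] at h2
          have := tm_lt (i + j)
          have := tm_lt (i + j + 1)
          have := tm_lt (i + j + 2)
          omega
        obtain ⟨l, hl, hl'⟩ : ∃ l, i ≤ 2 * l ∧ 2 * l ≤ i + 1 := ⟨(i + 1) / 2, by omega, by omega⟩
        obtain ⟨c, hc⟩ := Nat.exists_eq_add_of_le hl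
        have h1 := hskip c (by omega)
        have h2 := hskip (c + 2) (by omega)
        rw [← add_assoc i c 2, ← hc] at h2
        rw [← hc] at h1
        rw [tm_two_mul, show 2 * l + 2 = 2 * (l + 1) by ring, tm_two_mul] at h1
        rw [show 2 * l + 2 + 2 = 2 * (l + 2) by ring, show 2 * l + 2 = 2 * (l + 1) by ring,
          tm_two_mul, tm_two_mul] at h2
        exact not_three_equal l ⟨h1, h2⟩

/-- The ternary word. -/
def ternary (n : ℕ) : ℤ := (tm (n + 1) : ℤ) - tm n

theorem ternary_range (n : ℕ) : ternary n = -1 ∨ ternary n = 0 ∨ ternary n = 1 := by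
  have := tm_lt n
  have := tm_lt (n + 1)
  unfold ternary
  omega

/-- **No squares.** -/
theorem ternary_not_square {p : ℕ} (hp : 1 ≤ p) (i : ℕ) :
    ¬∀ j < p, ternary (i + j) = ternary (i + j + p) := by
  intro h
  have hd : ∀ j, j ≤ p → (tm (i + j + p) : ℤ) - tm (i + j) = (tm (i + p) : ℤ) - tm i := by
    intro j
    induction j with
    | zero => intro _; rfl
    | succ j ih =>
      intro hj
      have h1 := ih (by omega)
      have h2 := h j (by omega)
      unfold ternary at h2
      rw [show i + (j + 1) + p = i + j + p + 1 by omega, ← add_assoc]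
      omega
  by_cases h0 : tm (i + p) = tm i
  · exact not_overlap p hp i fun j hj => by
      have := hd j hj
      omega
  · have := hd p le_rfl
    have := tm_lt i
    have := tm_lt (i + p)
    have := tm_lt (i + p + p)
    omega

theorem sum_range_two_mul {M : Type*} [AddCommMonoid M] (f : ℕ → M) : ∀ N : ℕ,
    ∑ n ∈ range (2 * N), f n = ∑ n ∈ range N, (f (2 * n) + f (2 * n + 1))
  | 0 => by simp
  | N + 1 => by
      rw [show 2 * (N + 1) = 2 * N + 1 + 1 by ring, sum_range_succ, sum_range_succ,
        sum_range_succ, sum_range_two_mul f N, add_assoc]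

/-- The signed power sums vanish. -/
theorem signed_pow_sum_eq_zero : ∀ k m : ℕ, m ≤ k →
    ∑ n ∈ range (2 ^ (k + 1)), (-1 : ℤ) ^ tm n * (n : ℤ) ^ m = 0 := by
  have hneg : ∀ n, (-1 : ℤ) ^ tm (2 * n + 1) = -(-1 : ℤ) ^ tm n := fun n => by
    rw [tm_two_mul_add_one]
    rcases (show tm n = 0 ∨ tm n = 1 by have := tm_lt n; omega) with e | e <;> simp [e]
  intro k
  induction k with
  | zero =>
    intro m hm
    obtain rfl : m = 0 := by omega
    simp [sum_range_succ, tm]
  | succ k ih =>
    intro m hm
    rw [pow_succ', sum_range_two_mul]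
    have h1 : ∀ n, (-1 : ℤ) ^ tm (2 * n) * ((2 * n : ℕ) : ℤ) ^ m +
        (-1 : ℤ) ^ tm (2 * n + 1) * ((2 * n + 1 : ℕ) : ℤ) ^ m =
        -∑ r ∈ range m, (m.choose r : ℤ) * 2 ^ r * ((-1 : ℤ) ^ tm n * (n : ℤ) ^ r) := by
      intro n
      push_cast
      rw [tm_two_mul, hneg, add_pow (2 * (n : ℤ)) 1 m, sum_range_succ, mul_add, mul_sum]
      simp only [one_pow, mul_one, Nat.choose_self, Nat.cast_one]
      rw [show ∑ r ∈ range m, -(-1 : ℤ) ^ tm n * ((2 * (n : ℤ)) ^ r * (m.choose r : ℤ)) =
        -∑ r ∈ range m, (m.choose r : ℤ) * 2 ^ r * ((-1 : ℤ) ^ tm n * (n : ℤ) ^ r) by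
          rw [← sum_neg_distrib]
          exact sum_congr rfl fun r _ => by rw [mul_pow]; ring]
      ring
    rw [sum_congr rfl fun n _ => h1 n, sum_neg_distrib, sum_comm, neg_eq_zero]
    refine sum_eq_zero fun r hr => ?_
    rw [← mul_sum, ih r (by have := mem_range.1 hr; omega), mul_zero]

/-- **Prouhet's theorem**, for polynomials. -/
theorem poly_sum_eq {R : Type*} [CommRing R] (k : ℕ) (P : Polynomial R) (hP : P.natDegree ≤ k) :
    ∑ n ∈ (range (2 ^ (k + 1))).filter (fun n => tm n = 0), P.eval (n : R) =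
      ∑ n ∈ (range (2 ^ (k + 1))).filter (fun n => tm n = 1), P.eval (n : R) := by
  have key : ∑ n ∈ range (2 ^ (k + 1)), (-1 : R) ^ tm n * P.eval (n : R) = 0 := by
    simp only [Polynomial.eval_eq_sum_range, mul_sum]
    rw [sum_comm]
    refine sum_eq_zero fun r hr => ?_
    have h := congrArg (Int.cast (R := R))
      (signed_pow_sum_eq_zero k r (by have := mem_range.1 hr; omega))
    push_cast at h
    rw [sum_congr rfl fun n _ => mul_left_comm _ (P.coeff r) _, ← mul_sum, h, mul_zero]
  set A := range (2 ^ (k + 1))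
  have h0 : ∑ n ∈ A.filter (fun n => tm n = 0), (-1 : R) ^ tm n * P.eval (n : R) =
      ∑ n ∈ A.filter (fun n => tm n = 0), P.eval (n : R) :=
    sum_congr rfl fun n hn => by rw [(mem_filter.1 hn).2, pow_zero, one_mul]
  have h1 : ∑ n ∈ A.filter (fun n => ¬tm n = 0), (-1 : R) ^ tm n * P.eval (n : R) =
      -∑ n ∈ A.filter (fun n => tm n = 1), P.eval (n : R) := by
    rw [← sum_neg_distrib]
    refine sum_congr (filter_congr fun n _ => by have := tm_lt n; omega) fun n hn => ?_
    rw [(mem_filter.1 hn).2, pow_one, neg_one_mul]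
  rw [← sum_filter_add_sum_filter_not A (fun n => tm n = 0), h0, h1] at key
  exact eq_of_sub_eq_zero ((sub_eq_add_neg _ _).trans key)

end FA.ThueWords
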